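import Fermat.Agent.TraceFn.JZero

/-!
# Lowering the exponent of a prime in a residual level: the statements on `J₀`

`LowersPow q n p L`: a polynomial `t` in the good Hecke operators which kills the forms of level
`L qⁿ`, times `T_ℓ - ℓ - 1`, acts nilpotently on the inertia-fixed `p`-torsion of `J₀(L qⁿ⁺¹)`.
So a residual eigensystem which is not Eisenstein and occurs in that torsion occurs at level
`L qⁿ`.

* `StmtKeyTwo`: `n = 1` with the rigidifying level `4 ∣ L` (`q` odd).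
* `StmtElemTwo`: `n = 1`, `q = 2`, `p = 3`.
-/

set_option autoImplicit false

noncomputable section

namespace Fermat.Agent.LowerSq

open ModularCurve TraceFn

/-- The non-Eisenstein operator `T_ℓ - ℓ - 1`. -/
def eisOp (S : Finset ℕ) (ℓ : ℕ) : AwayHecke S := awayGen S ℓ - MvPolynomial.C ((ℓ : ℤ) + 1)

/-- Good Hecke polynomials killing level `L qⁿ` are nilpotent, after multiplication by an
Eisenstein operator, on the inertia-fixed `p`-torsion of level `L qⁿ⁺¹`. -/
def LowersPow (q n p L : ℕ) : Prop :=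
  ∀ (_ : NeZero (L * q ^ (n + 1))) (_ : NeZero (L * q ^ n)) (S : Finset ℕ), p ∈ S →
    (∀ r : ℕ, r.Prime → r ∣ L * q ^ (n + 1) → r ∈ S) →
      ∀ (hlow : ∀ r : ℕ, r.Prime → r ∣ L * q ^ n → r ∈ S) (t : AwayHecke S),
        awayEval (L * q ^ n) S hlow t = 0 → ∀ ℓ : ℕ, ℓ.Prime → ℓ ∉ S →
          ∀ A : ValuationSubring (AlgebraicClosure ℚ), A.LiesOverPrime q →
            ∀ P : JZero (L * q ^ (n + 1)), p • P = 0 →
              (∀ σ ∈ A.inertiaSubgroupIn ℚ, σ • P = P) →
                ∃ k : ℕ, jHecke (L * q ^ (n + 1)) (awayIncl S ((t * eisOp S ℓ) ^ k)) P = 0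

/-- The case of `X₀(q² L)` with a rigidifying level. -/
def StmtKeyTwo : Prop :=
  ∀ q L p : ℕ, q.Prime → q ≠ 2 → p.Prime → p ≠ 2 → p ≠ q → ¬ q ∣ L → 4 ∣ L → LowersPow q 1 p L

/-- The elementary case `q = 2`, `p = 3`. -/
def StmtElemTwo : Prop := ∀ L : ℕ, ¬ 2 ∣ L → LowersPow 2 1 3 L

end Fermat.Agent.LowerSq
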