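import Fermat.Agent.LowerSq.Assembly
import Fermat.Agent.LowerSq.Null.KeyTwo
import Fermat.Agent.S36
import Fermat.Agent.S58

/-!
# The squarefree residual level, with all inputs plugged in

`StmtLower` and the conductor-level matching in the form used by the assembly of S59.
-/

set_option autoImplicit false

noncomputable section

namespace Fermat.Agent.LowerSq

theorem spec37 : Spec37 := fun N p _ hcomm => S37.result N p hcomm

/-- **Cube-free residual levels can be lowered to squarefree ones.** -/
theorem stmtLower : R59.StmtLower :=
  stmtLower_of spec37 @Fermat.Agent.S36.result stmtKeyTwo

/-- Conductor-level matching in the form used by the assembly. -/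
theorem stmt58 : R59.Stmt58 := @Fermat.Agent.S58.result

end Fermat.Agent.LowerSq
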