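import Fermat.Agent.HK.TateFinal
import Fermat.Agent.CondLevel.Compare
import Fermat.Agent.GAL.FromSpecialization
import Fermat.Agent.LR.Main
import Fermat.Agent.Eigen.Coeff
import Fermat.Agent.MF.IntStruct.Hecke

/-!
# The inertia-fixed vector of a residual eigensystem in `J₀(N)[p]`

If an eigenform of level `N` is congruent modulo `𝔪 ∣ p` to a curve which is semistable at
`q ≠ p`, then some nonzero point of `J₀(N)[p]` killed by the congruence ideal is fixed by inertia
at `q`: every element of the Galois group satisfies the characteristic polynomial it has on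
`E[p]` there, so inertia acts through `p`-groups.
-/

set_option autoImplicit false

noncomputable section

open ModularCurve Fermat.Agent.TraceFn Fermat.Agent.CondLevel
open scoped Matrix

namespace Fermat.Agent.LowerSq

local notation "GQ" => AlgebraicClosure ℚ ≃ₐ[ℚ] AlgebraicClosure ℚ

section Algebra

/-- A unipotent automorphism of a `ZMod p`-module has order dividing `p`. -/
theorem pow_eq_one_of_sq {p : ℕ} [Fact p.Prime] {V : Type*} [AddCommGroup V] [Module (ZMod p) V]
    (f : Module.End (ZMod p) V) (h : f ^ 2 = (2 : ZMod p) • f - 1) : f ^ p = 1 := by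
  rcases subsingleton_or_nontrivial (Module.End (ZMod p) V) with h' | h'
  · exact Subsingleton.elim _ _
  have : CharP (Module.End (ZMod p) V) p :=
    charP_of_injective_algebraMap (algebraMap (ZMod p) _).injective p
  have h0 : (f - 1) ^ 2 = 0 := by
    rw [sq, sub_mul, mul_sub, mul_one, one_mul, ← sq, h, two_smul]
    abel
  have h1 : (f - 1) ^ p = 0 := pow_eq_zero_of_le (Fact.out : p.Prime).two_le h0
  rwa [sub_pow_char_of_commute p (Commute.one_right f), one_pow, sub_eq_zero] at h1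

/-- A subgroup whose elements have order dividing `p` on a nonzero finite `p`-torsion group fixes
a nonzero element. -/
theorem exists_fixed_of_pow_eq_one {p : ℕ} [Fact p.Prime] {G V : Type*} [Group G]
    [AddCommGroup V] [Module (ZMod p) V] [Finite V] [Nontrivial V]
    (χ : G →* Module.End (ZMod p) V) (I : Subgroup G) (hI : ∀ g ∈ I, χ g ^ p = 1) :
    ∃ v : V, v ≠ 0 ∧ ∀ g ∈ I, χ g v = v := by
  let H : Subgroup (Module.End (ZMod p) V)ˣ := I.map χ.toHomUnits
  have hP : IsPGroup p H := by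
    rintro ⟨_, g, hg, rfl⟩
    refine ⟨1, Subtype.ext (Units.ext ?_)⟩
    simpa using hI g hg
  let _ : MulAction H V :=
    { smul := fun u v => ((u : (Module.End (ZMod p) V)ˣ) : Module.End (ZMod p) V) v
      one_smul := fun _ => rfl
      mul_smul := fun _ _ _ => rfl }
  have hdvd : p ∣ Nat.card V := by
    obtain ⟨v, hv⟩ := exists_ne (0 : V)
    have hord : addOrderOf v = p := by
      refine addOrderOf_eq_prime ?_ hv
      rw [← Nat.cast_smul_eq_nsmul (ZMod p), ZMod.natCast_self, zero_smul]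
    exact hord ▸ addOrderOf_dvd_natCard v
  have h0 : (0 : V) ∈ MulAction.fixedPoints H V := fun u =>
    map_zero ((u : (Module.End (ZMod p) V)ˣ) : Module.End (ZMod p) V)
  obtain ⟨v, hv, hne⟩ := hP.exists_fixed_point_of_prime_dvd_card_of_fixed_point V hdvd h0
  exact ⟨v, fun h => hne h.symm, fun g hg =>
    hv ⟨χ.toHomUnits g, g, hg, rfl⟩⟩

/-- The action of a monoid on a stable subgroup. -/
def subAction {G J : Type*} [Monoid G] [AddCommGroup J] [DistribMulAction G J] (M : AddSubgroup J)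
    (h : ∀ g : G, ∀ x ∈ M, g • x ∈ M) : G →* AddMonoid.End M where
  toFun g :=
    { toFun := fun x => ⟨g • (x : J), h g _ x.2⟩
      map_zero' := Subtype.ext (smul_zero (A := J) g)
      map_add' := fun x y => Subtype.ext (smul_add g (x : J) (y : J)) }
  map_one' := AddMonoidHom.ext fun x => Subtype.ext (one_smul G (x : J))
  map_mul' g g' := AddMonoidHom.ext fun x => Subtype.ext (mul_smul g g' (x : J))

@[simp] theorem coe_subAction {G J : Type*} [Monoid G] [AddCommGroup J] [DistribMulAction G J]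
    (M : AddSubgroup J) (h : ∀ g : G, ∀ x ∈ M, g • x ∈ M) (g : G) (x : M) :
    ((subAction M h g x : M) : J) = g • (x : J) := rfl

/-- An action on a `p`-torsion group is linear over `ZMod p`. -/
def linearAction (p : ℕ) {G V : Type*} [Monoid G] [AddCommGroup V] [Module (ZMod p) V]
    (φ : G →* AddMonoid.End V) : G →* Module.End (ZMod p) V where
  toFun g := AddMonoidHom.toZModLinearMap p (φ g)
  map_one' := LinearMap.ext fun x => DFunLike.congr_fun (map_one φ) x
  map_mul' g g' := LinearMap.ext fun x => DFunLike.congr_fun (map_mul φ g g') x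

end Algebra

variable {N : ℕ} [NeZero N] {S : Finset ℕ} (hNS : ∀ r : ℕ, r.Prime → r ∣ N → r ∈ S)
  {f : CuspForm (CongruenceSubgroup.Gamma0 N) 2} (hf : f.IsNormalizedEigenform)
  (𝔪 : Ideal (integralClosure ℤ ℂ))

/-- The value of a polynomial in the good operators on an eigenform. -/
def eigenValue : AwayHecke S →+* integralClosure ℤ ℂ :=
  haveI := Fermat.Agent.MF.IntStruct.moduleFinite_heckeAlgebra N 2 (∅ : Set ℕ)
  (Eigen.eigenCharInt hf (↑S : Set ℕ)).comp (awayEval N S hNS)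

theorem eigenValue_awayGen {ℓ : ℕ} (hℓ : ℓ.Prime) (hℓS : ℓ ∉ S) :
    eigenValue hNS hf (awayGen S ℓ) =
      haveI := Fermat.Agent.MF.IntStruct.moduleFinite_heckeAlgebra N 2 (∅ : Set ℕ)
      Eigen.intCoeff hf ℓ := by
  haveI := Fermat.Agent.MF.IntStruct.moduleFinite_heckeAlgebra N 2 (∅ : Set ℕ)
  rw [eigenValue, RingHom.comp_apply,
    awayEval_awayGen N S hNS hℓ (fun h => hℓS (hNS ℓ hℓ h)) (fun h => hℓS (Finset.mem_coe.mp h)),
    Eigen.eigenCharInt_T]

/-- The `p`-torsion killed by the congruence ideal. -/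
def mTor (p : ℕ) : AddSubgroup (JZero N) where
  carrier := {x | p • x = 0 ∧ ∀ t, eigenValue hNS hf t ∈ 𝔪 → jHecke N (awayIncl S t) x = 0}
  zero_mem' := ⟨nsmul_zero _, fun _ _ => map_zero _⟩
  add_mem' {x y} hx hy := ⟨by rw [nsmul_add, hx.1, hy.1, add_zero],
    fun t ht => by rw [map_add, hx.2 t ht, hy.2 t ht, add_zero]⟩
  neg_mem' {x} hx := ⟨by rw [neg_nsmul, hx.1, neg_zero],
    fun t ht => by rw [map_neg, hx.2 t ht, neg_zero]⟩

theorem nontrivial_mTor {p : ℕ} [Fact p.Prime] (h𝔪 : 𝔪.IsMaximal)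
    (hp𝔪 : (p : integralClosure ℤ ℂ) ∈ 𝔪) : ∃ x ∈ mTor hNS hf 𝔪 p, x ≠ 0 := by
  have hp : p.Prime := Fact.out
  haveI := Fermat.Agent.MF.IntStruct.moduleFinite_heckeAlgebra N 2 (∅ : Set ℕ)
  let R := Fin (MF.ParHom.parRank N) → ℤ
  let H := ↥(CuspForm.heckeAlgebra N 2 (↑S : Set ℕ))
  let act : H →+* Module.End ℤ R :=
    (Matrix.toLinAlgEquiv' (R := ℤ) (n := Fin (MF.ParHom.parRank N))).toRingHom.comp
      ((HK.heckeRep N).comp (awayToFull N S))
  letI : Module H R := Module.compHom R act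
  have : 𝔪.IsPrime := h𝔪.isPrime
  obtain ⟨v, hv, hv'⟩ := LR.exists_vector_mod (T := H) (M := R)
    (fun t ht => by
      have h0 : HK.heckeRep N (awayToFull N S t) = 0 := by
        refine Matrix.toLinAlgEquiv'.injective (LinearMap.ext fun x => ?_)
        rw [map_zero]
        exact ht x
      refine Subalgebra.inclusion_injective _ (?_ : awayToFull N S t = awayToFull N S 0)
      exact HK.heckeRep_injective N (by rw [h0, map_zero, map_zero]))
    hp ((𝔪.comap (Eigen.eigenCharInt hf (↑S : Set ℕ))))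
    (by rw [Ideal.mem_comap, map_natCast]; exact hp𝔪)
  let D := HK.tateCoords N p
  obtain ⟨z, hz⟩ := (D.e 1).surjective fun i => (v i : ZMod (p ^ 1))
  refine ⟨z, ⟨by have h := (HK.mem_jTor (N := N) (p := p)).mp z.2; rwa [pow_one] at h, fun t ht => ?_⟩,
    fun h0 => ?_⟩
  · obtain ⟨w, hw⟩ := hv (awayEval N S hNS t) ht
    have hc := Fermat.Agent.HK.Corr.heckeOperatorsCommuteBar N
    have key := D.e_heckeEvalBar hc (awayIncl S t) 1 z
    rw [← HK.awayToFull_awayEval hNS t, hz] at key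
    have hrhs : (HK.heckeRep N (awayToFull N S (awayEval N S hNS t))).map
        (Int.castRingHom (ZMod (p ^ 1))) *ᵥ (fun i => (v i : ZMod (p ^ 1))) = 0 := by
      funext i
      have hi : (HK.heckeRep N (awayToFull N S (awayEval N S hNS t)) *ᵥ v) i = p * w i := by
        have h3 := congrFun hw i
        change (Matrix.toLinAlgEquiv' (HK.heckeRep N (awayToFull N S (awayEval N S hNS t))) v) i =
          ((p : ℤ) • w) i at h3
        rwa [Matrix.toLinAlgEquiv'_apply, Pi.smul_apply, smul_eq_mul] at h3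
      have h2 := congrArg (Int.castRingHom (ZMod (p ^ 1))) hi
      rw [RingHom.map_mulVec] at h2
      rw [map_mul, map_natCast, show ((p : ℕ) : ZMod (p ^ 1)) = 0 from (ZMod.natCast_eq_zero_iff _ _).mpr (by rw [pow_one]), zero_mul] at h2
      simpa [Matrix.mulVec, dotProduct, Function.comp_def] using h2
    rw [hrhs, AddEquiv.map_eq_zero_iff] at key
    have key' := congrArg Subtype.val key
    rw [jHecke_apply, heckeModuleBar_smul_def hc]
    exact key'
  · refine hv' 1 (fun h1 => h𝔪.ne_top ((Ideal.eq_top_iff_one 𝔪).mpr (by rwa [Ideal.mem_comap, map_one] at h1))) ?_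
    have hz0 : z = 0 := Subtype.ext h0
    rw [hz0, map_zero] at hz
    have hd : ∀ i, (p : ℤ) ∣ v i := fun i => by
      have := (ZMod.intCast_zmod_eq_zero_iff_dvd (v i) (p ^ 1)).mp (congrFun hz i).symm
      simpa using this
    choose w hw using hd
    exact ⟨w, by rw [one_smul]; funext i; rw [Pi.smul_apply, smul_eq_mul, hw i]⟩

/-- A nonzero finite `p`-torsion group with a Galois action satisfying, at good Frobenius
elements, the quadratic relation of `E[p]` has a nonzero point fixed by inertia at `q`. -/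
theorem exists_inertia_fixed_of_quadratic {V : Type} [AddCommGroup V] [Finite V] [Nontrivial V]
    {p q : ℕ} [Fact p.Prime] [Module (ZMod p) V] (φ : GQ →* AddMonoid.End V)
    (hfin : GaloisFactorsThroughFiniteLevel φ) {S : Finset ℕ} (hpS : p ∈ S) (hq : q.Prime)
    (hqp : q ≠ p) {W : WeierstrassCurve ℤ} (hΔ : W.Δ ≠ 0)
    (hss : (q : ℤ) ∣ W.Δ → ¬ (q : ℤ) ∣ W.c₄) (hbad : ∀ ℓ : ℕ, ℓ.Prime → (ℓ : ℤ) ∣ W.Δ → ℓ ∈ S)
    (hfrob : AtFrobeniusOutside S fun σ => ∀ ℓ : ℕ, ℓ.Prime → ℓ ∉ S →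
      ∀ B : ValuationSubring (AlgebraicClosure ℚ), B.LiesOverPrime ℓ → B.IsFrobeniusAt σ ℓ →
        ∀ x : V, φ σ (φ σ x) = (W.apOfModel ℓ : ℤ) • φ σ x - ℓ • x)
    {A : ValuationSubring (AlgebraicClosure ℚ)} (hA : A.LiesOverPrime q) :
    ∃ v : V, v ≠ 0 ∧ ∀ σ ∈ A.inertiaSubgroupIn ℚ, φ σ v = v := by
  have hp : p.Prime := Fact.out
  let χ : GQ →* Module.End (ZMod p) V := linearAction p φ
  have hfl : GaloisFactorsThroughFiniteLevel χ := by
    obtain ⟨L, hL, h1⟩ := hfin
    exact ⟨L, hL, fun g hg => LinearMap.ext fun x => DFunLike.congr_fun (h1 g hg) x⟩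
  have := moduleFinite_tors W hΔ p
  let Q : Module.End (ZMod p) V → Module.End (ZMod p) (Tors W p) → Prop := fun a b =>
    a ^ 2 = LinearMap.trace (ZMod p) (Tors W p) b • a - LinearMap.det b • 1
  have hQ : ∀ g, Q (χ g) (rhoTors W p g) := by
    refine forall_of_frobenius_pow hfl (rhoTors_finiteLevel W hΔ hp.ne_zero) Q S ?_
    intro ℓ hℓ hℓS B hB σ hσ k
    obtain ⟨ht, hd⟩ := frobenius_trace_det W hΔ hℓ (p := p) (fun h => hℓS (h ▸ hpS))
      (fun hdiv => hℓS (hbad ℓ hℓ hdiv)) hB hσ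
    have h1 : χ σ ^ 2 = (W.apOfModel ℓ : ZMod p) • χ σ - (ℓ : ZMod p) • 1 := by
      refine LinearMap.ext fun x => ?_
      rw [sq, Module.End.mul_apply, LinearMap.sub_apply, LinearMap.smul_apply, LinearMap.smul_apply,
        Module.End.one_apply, Int.cast_smul_eq_zsmul, Nat.cast_smul_eq_nsmul]
      exact hfrob ℓ hℓ hℓS B hB σ hσ ℓ hℓ hℓS B hB hσ x
    show χ (σ ^ k) ^ 2 = LinearMap.trace (ZMod p) (Tors W p) (rhoTors W p (σ ^ k)) • χ (σ ^ k) -
      LinearMap.det (rhoTors W p (σ ^ k)) • 1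
    rw [map_pow χ, map_pow (rhoTors W p), map_pow LinearMap.det, pow_quadratic h1 k, trace_pow_eq (finrank_tors W hΔ p), ht, hd]
  have hI : ∀ g ∈ A.inertiaSubgroupIn ℚ, χ g ^ p = 1 := by
    intro g hg
    have hu := inertia_unipotent W hΔ hq hss
      (fun h => hqp ((Nat.prime_dvd_prime_iff_eq hq hp).mp h)) hA hg
    have hdet : LinearMap.det (rhoTors W p g) = 1 := by
      rw [det_rhoTors W hΔ p g]
      exact cycChar_inertia p hq (fun h => hqp ((Nat.prime_dvd_prime_iff_eq hq hp).mp h)) hA hg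
    have htr : LinearMap.trace (ZMod p) (Tors W p) (rhoTors W p g) = 2 := by
      have h2 := sq_eq_of_finrank_two (finrank_tors W hΔ p) (rhoTors W p g)
      rw [hdet, one_smul] at h2
      have h3 : (LinearMap.trace (ZMod p) (Tors W p) (rhoTors W p g) - 2) • rhoTors W p g = 0 := by
        rw [sub_smul, sub_eq_zero]
        exact sub_left_injective (b := 1) (h2.symm.trans hu)
      refine sub_eq_zero.mp (eq_zero_of_smul_eq_zero W hΔ hp.ne_zero _ fun x => ?_)
      have h4 := LinearMap.congr_fun h3 (rhoTors W p g⁻¹ x)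
      rw [LinearMap.smul_apply, LinearMap.zero_apply, ← Module.End.mul_apply, ← map_mul,
        mul_inv_cancel, map_one, Module.End.one_apply] at h4
      exact h4
    refine pow_eq_one_of_sq _ ?_
    have := hQ g
    simp only [Q, htr, hdet, one_smul] at this
    exact this
  exact exists_fixed_of_pow_eq_one χ (A.inertiaSubgroupIn ℚ) hI

/-- The nonzero inertia-fixed point. -/
theorem exists_fixed_point {p q : ℕ} [Fact p.Prime] (hq : q.Prime) (hqp : q ≠ p) (hpS : p ∈ S)
    (hquad : GAL.TorsionQuadratic N p) {W : WeierstrassCurve ℤ} (hΔ : W.Δ ≠ 0)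
    (hss : (q : ℤ) ∣ W.Δ → ¬ (q : ℤ) ∣ W.c₄) (hbad : ∀ ℓ : ℕ, ℓ.Prime → (ℓ : ℤ) ∣ W.Δ → ℓ ∈ S)
    (h𝔪 : 𝔪.IsMaximal) (hp𝔪 : (p : integralClosure ℤ ℂ) ∈ 𝔪)
    (hcong : ∀ ℓ : ℕ, ℓ.Prime → ℓ ∉ S →
      eigenValue hNS hf (awayGen S ℓ) - ((W.apOfModel ℓ : ℤ) : integralClosure ℤ ℂ) ∈ 𝔪)
    {A : ValuationSubring (AlgebraicClosure ℚ)} (hA : A.LiesOverPrime q) :
    ∃ P : JZero N, P ≠ 0 ∧ p • P = 0 ∧ (∀ σ ∈ A.inertiaSubgroupIn ℚ, σ • P = P) ∧
      ∀ t, eigenValue hNS hf t ∈ 𝔪 → jHecke N (awayIncl S t) P = 0 := by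
  have hp : p.Prime := Fact.out
  set M := mTor hNS hf 𝔪 p with hM
  obtain ⟨x₀, hx₀, hx₀'⟩ := nontrivial_mTor hNS hf 𝔪 h𝔪 hp𝔪
  have : Nontrivial M := ⟨⟨⟨x₀, hx₀⟩, 0, fun h => hx₀' (congrArg Subtype.val h)⟩⟩
  have : Finite M := by
    refine (Set.Finite.subset (HK.finite_setOf_pow_smul_eq_zero N p 1) ?_).to_subtype
    exact fun x hx => by simpa using hx.1
  have hsmul : ∀ g : GQ, ∀ x ∈ M, g • x ∈ M := fun g x hx => by
    refine ⟨?_, fun t ht => ?_⟩
    · have h := map_nsmul (DistribSMul.toAddMonoidHom (JZero N) g) p x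
      rw [DistribSMul.toAddMonoidHom_apply, DistribSMul.toAddMonoidHom_apply, hx.1] at h
      exact h.symm.trans (smul_zero (A := JZero N) g)
    · exact (jHecke_galois N _ g x).trans
        ((congrArg (g • ·) (hx.2 t ht)).trans (smul_zero (A := JZero N) g))
  letI : Module (ZMod p) M := AddCommGroup.zmodModule fun x => Subtype.ext x.2.1
  obtain ⟨v, hv, hfix⟩ := exists_inertia_fixed_of_quadratic (p := p) (q := q)
    (subAction M hsmul) (S := S) (by
      obtain ⟨L, hL, h1⟩ := HK.torsionFiniteLevel N p 1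
      exact ⟨L, hL, fun g hg => AddMonoidHom.ext fun x => Subtype.ext
        (h1 g hg x (by rw [pow_one]; exact x.2.1))⟩)
    hpS hq hqp hΔ hss hbad (fun ℓ₀ _ _ B₀ _ σ _ ℓ hℓ hℓS B hB hσ x => Subtype.ext (by
      have hℓp : ℓ ≠ p := fun h => hℓS (h ▸ hpS)
      have hℓNp : ¬ ℓ ∣ N * p := fun h => (hℓ.dvd_mul.mp h).elim (fun h' => hℓS (hNS ℓ hℓ h'))
        fun h' => hℓp ((Nat.prime_dvd_prime_iff_eq hℓ hp).mp h')
      have hq2 := hquad ℓ hℓ hℓNp B hB σ hσ (x : JZero N) ⟨1, by rw [pow_one]; exact x.2.1⟩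
      have hTa : heckeOperatorBar N ⟨ℓ, hℓ⟩ (σ • (x : JZero N)) =
          (W.apOfModel ℓ : ℤ) • (σ • (x : JZero N)) := by
        have h0 := (hsmul σ _ x.2).2
          (awayGen S ℓ - ((W.apOfModel ℓ : ℤ) : AwayHecke S))
          (by rw [map_sub, map_intCast]; exact hcong ℓ hℓ hℓS)
        rw [map_sub, map_sub, awayIncl_awayGen hℓ hℓS, map_intCast, map_intCast] at h0
        rw [← sub_eq_zero, ← h0]
        refine (congrArg₂ (fun a b : JZero N => a - b) ?_ rfl : _)
        exact ((jHecke_apply N _ _).trans (heckeModuleBar_heckeGen_smul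
          (Fermat.Agent.HK.Corr.heckeOperatorsCommuteBar N) _ _)).symm
      rw [hTa] at hq2
      show σ • σ • (x : JZero N) =
        (W.apOfModel ℓ : ℤ) • (σ • (x : JZero N)) - ℓ • (x : JZero N)
      rw [← sub_eq_zero, ← hq2]
      abel)) hA
  exact ⟨v, fun h => hv (Subtype.ext h), v.2.1,
    fun σ hσ => congrArg Subtype.val (hfix σ hσ), v.2.2⟩

end Fermat.Agent.LowerSq
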