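import Fermat.Agent.LowerSq.Defs
import Fermat.Agent.LowerSq.FixedVector
import Fermat.Agent.MOD.EigenCharacter
import Fermat.Agent.Galois.Places
import Fermat.Agent.Newforms.Eigen
import Fermat.Agent.HK.HeckeFinal
import Fermat.Agent.HK.HeckeGalois
import Fermat.Prelude.Def_FLTPrelim_ModularRep

/-!
# Residual modularity descends from level `L qⁿ⁺¹` to level `L qⁿ`

If good Hecke polynomials killing the forms of level `L qⁿ` act nilpotently, after multiplication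
by an Eisenstein operator, on the inertia-fixed `p`-torsion of level `L qⁿ⁺¹`, then an irreducible
residual representation of a semistable curve of level `L qⁿ⁺¹` has level `L qⁿ`.
-/

set_option autoImplicit false

noncomputable section

open ModularCurve Fermat.Agent.TraceFn CongruenceSubgroup

namespace Fermat.Agent.LowerSq

/-- The type of S37. -/
def Spec37 : Prop :=
  ∀ (N p : ℕ) [NeZero N], ModularCurve.HeckeOperatorsCommuteBar N →
    letI := ModularCurve.heckeModuleBar N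
    ∀ (_ : SMulCommClass (AlgebraicClosure ℚ ≃ₐ[ℚ] AlgebraicClosure ℚ) ModularCurve.HeckeAlg
      (ModularCurve.JZero N)),
      ModularCurve.SpecializationExists (K := ℚ) (L := AlgebraicClosure ℚ) N p
        (ModularCurve.JZero N)

theorem torsionQuadratic_of_spec37 (hspec : Spec37) (N p : ℕ) [NeZero N] :
    GAL.TorsionQuadratic N p :=
  (GAL.torsion_properties_of_specializationExists N p (HK.Corr.heckeOperatorsCommuteBar N)
    (HK.Corr.smulCommClass_heckeModuleBar N) (hspec N p (HK.Corr.heckeOperatorsCommuteBar N))).1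

/-- The residual eigensystem of a curve on the good operators. -/
def resChar (W : WeierstrassCurve ℤ) (p : ℕ) (S : Finset ℕ) : AwayHecke S →+* ZMod p :=
  MvPolynomial.eval₂Hom (Int.castRingHom (ZMod p)) fun i => (W.apOfModel i.1.1 : ZMod p)

theorem resChar_awayGen (W : WeierstrassCurve ℤ) (p : ℕ) {S : Finset ℕ} {ℓ : ℕ} (hℓ : ℓ.Prime)
    (hℓS : ℓ ∉ S) : resChar W p S (awayGen S ℓ) = (W.apOfModel ℓ : ZMod p) := by
  rw [awayGen, dif_pos ⟨hℓ, hℓS⟩]
  exact MvPolynomial.eval₂Hom_X' _ _ _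

theorem resChar_surjective (W : WeierstrassCurve ℤ) (p : ℕ) (S : Finset ℕ) :
    Function.Surjective (resChar W p S) := fun z => by
  obtain ⟨m, rfl⟩ := ZMod.intCast_surjective z
  exact ⟨(m : AwayHecke S), map_intCast _ m⟩

/-- The good Hecke algebra is generated by the good operators. -/
theorem awayEval_surjective {M : ℕ} [NeZero M] {S : Finset ℕ}
    (hMS : ∀ r : ℕ, r.Prime → r ∣ M → r ∈ S) : Function.Surjective (awayEval M S hMS) := by
  rintro ⟨t, ht⟩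
  induction ht using Algebra.adjoin_induction with
  | mem x hx =>
    rcases hx with ⟨r, hr, hrM, hrS, rfl⟩ | ⟨r, hrM, hr, hrS, rfl⟩
    · exact ⟨awayGen S r, awayEval_awayGen M S hMS hr hrM hrS⟩
    · exact absurd (Finset.mem_coe.mpr (hMS r hr hrM)) hrS
  | algebraMap z => exact ⟨(z : AwayHecke S), (map_intCast _ z).trans (Subtype.ext (by simp))⟩
  | add x y _ _ hx hy =>
    obtain ⟨a, ha⟩ := hx
    obtain ⟨b, hb⟩ := hy
    exact ⟨a + b, by rw [map_add, ha, hb]; rfl⟩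
  | mul x y _ _ hx hy =>
    obtain ⟨a, ha⟩ := hx
    obtain ⟨b, hb⟩ := hy
    exact ⟨a * b, by rw [map_mul, ha, hb]; rfl⟩

/-- A residual eigensystem killing every good polynomial which kills the forms of level `M` is
that of an eigenform of level `M`. -/
theorem exists_congruent_eigenform {M p : ℕ} [NeZero M] [Fact p.Prime] {S : Finset ℕ}
    (hMS : ∀ r : ℕ, r.Prime → r ∣ M → r ∈ S) (χ : AwayHecke S →+* ZMod p)
    (hχ : ∀ u, awayEval M S hMS u = 0 → χ u = 0) :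
    ∃ (F : CuspForm (Gamma0 M) 2) (𝔪' : Ideal (integralClosure ℤ ℂ)),
      F.IsNormalizedEigenform ∧ 𝔪'.IsMaximal ∧ (p : integralClosure ℤ ℂ) ∈ 𝔪' ∧
        ∀ ℓ : ℕ, ℓ.Prime → ℓ ∉ S → ∀ b : ℤ, χ (awayGen S ℓ) = b →
          ∃ a : integralClosure ℤ ℂ, (a : ℂ) = ModularFormClass.qCoeff F ℓ ∧
            a - (b : integralClosure ℤ ℂ) ∈ 𝔪' := by
  let T := ↥(CuspForm.heckeAlgebra M 2 (↑S : Set ℕ))
  haveI : Module.Finite ℤ T :=
    Fermat.Agent.MF.IntStruct.moduleFinite_heckeAlgebra M 2 (↑S : Set ℕ)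
  let φ : T →+* ZMod p := RingHom.liftOfSurjective (awayEval M S hMS) (awayEval_surjective hMS)
    ⟨χ, fun u hu => RingHom.mem_ker.mpr (hχ u (RingHom.mem_ker.mp hu))⟩
  have hφ : ∀ u, φ (awayEval M S hMS u) = χ u := fun u =>
    RingHom.liftOfRightInverse_comp_apply _ _ _ _ u
  have hsurj : Function.Surjective φ := fun z => by
    obtain ⟨m, rfl⟩ := ZMod.intCast_surjective z
    exact ⟨(m : T), map_intCast φ m⟩
  let 𝔭 := RingHom.ker φ
  have h𝔭 : 𝔭.IsMaximal := RingHom.ker_isMaximal_of_surjective φ hsurj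
  let act : T →+* Module.End ℂ (CuspForm (Gamma0 M) 2) :=
    (CuspForm.heckeAlgebra M 2 (↑S : Set ℕ)).val.toRingHom
  obtain ⟨g, lam, hg, hlam, hker⟩ := MOD.exists_eigvec_ker_le act 𝔭 (fun t ht => by
    have : t = 0 := Subtype.ext ht
    simp [this])
  have hint : ∀ t, lam t ∈ integralClosure ℤ ℂ := fun t =>
    (Algebra.IsIntegral.isIntegral (R := ℤ) t).map lam.toIntAlgHom
  let lam' : T →+* integralClosure ℤ ℂ := lam.codRestrict (integralClosure ℤ ℂ) hint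
  letI := lam'.toAlgebra
  have : Algebra.IsIntegral T (integralClosure ℤ ℂ) :=
    ⟨fun x => (Algebra.IsIntegral.isIntegral (R := ℤ) x).tower_top⟩
  obtain ⟨𝔪', h𝔪', hcomap⟩ := Ideal.exists_ideal_over_maximal_of_isIntegral
    (S := integralClosure ℤ ℂ) 𝔭 (fun t ht => hker (congrArg Subtype.val ht))
  have hmem : ∀ t, t ∈ 𝔭 → lam' t ∈ 𝔪' := fun t ht => by
    rw [← hcomap] at ht
    exact ht
  let ev : ℕ → ℂ := fun r => if h : r.Prime ∧ ¬ r ∣ M ∧ r ∉ (↑S : Set ℕ) then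
    lam (CuspForm.heckeAlgebra.T h.1 h.2.1 h.2.2) else 0
  obtain ⟨F, hF, hFev⟩ := Newforms.exists_isNormalizedEigenform_of_eigenvector (↑S : Set ℕ) ev g hg
    (fun r hr hrM hrS => by
      rw [show ev r = _ from dif_pos ⟨hr, hrM, hrS⟩]
      exact hlam (CuspForm.heckeAlgebra.T hr hrM hrS))
  refine ⟨F, 𝔪', hF, h𝔪', ?_, fun ℓ hℓ hℓS b hb => ?_⟩
  · have := hmem (p : T) (by rw [RingHom.mem_ker, map_natCast, ZMod.natCast_self])
    rwa [map_natCast] at this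
  have hℓM : ¬ ℓ ∣ M := fun h => hℓS (hMS ℓ hℓ h)
  have hℓS' : ℓ ∉ (↑S : Set ℕ) := fun h => hℓS (Finset.mem_coe.mp h)
  refine ⟨lam' (CuspForm.heckeAlgebra.T hℓ hℓM hℓS'), ?_, ?_⟩
  · rw [hFev ℓ hℓ hℓM hℓS', show ev ℓ = _ from dif_pos ⟨hℓ, hℓM, hℓS'⟩]
    rfl
  · have := hmem (CuspForm.heckeAlgebra.T hℓ hℓM hℓS' - (b : T)) (by
      rw [RingHom.mem_ker, map_sub, map_intCast, ← awayEval_awayGen M S hMS hℓ hℓM hℓS', hφ, hb,
        sub_self])
    rwa [map_sub, map_intCast] at this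

/-- Residual modularity descends one power of `q`. -/
theorem exists_level_pred (hspec : Spec37) {p q n L : ℕ} (hp : p.Prime) (hq : q.Prime)
    (hqp : q ≠ p) (hn : n ≠ 0) (hL : L ≠ 0) (hlow : LowersPow q n p L)
    {W : WeierstrassCurve ℤ} (hΔ : W.Δ ≠ 0) (hW : W.IsSemistableModel)
    (hirr : W.ModRepIsIrreducible p) (hres : W.IsResiduallyModularOfLevel p (L * q ^ (n + 1))) :
    W.IsResiduallyModularOfLevel p (L * q ^ n) := by
  classical
  have : Fact p.Prime := ⟨hp⟩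
  have hN : NeZero (L * q ^ (n + 1)) := ⟨mul_ne_zero hL (pow_ne_zero _ hq.ne_zero)⟩
  have hM : NeZero (L * q ^ n) := ⟨mul_ne_zero hL (pow_ne_zero _ hq.ne_zero)⟩
  obtain ⟨f, 𝔪, hf, h𝔪, hp𝔪, hc⟩ := hres
  set S : Finset ℕ := (L * q ^ (n + 1)).primeFactors ∪ W.Δ.natAbs.primeFactors ∪ {p} with hS
  have hpS : p ∈ S := by simp [hS]
  have hNS : ∀ r : ℕ, r.Prime → r ∣ L * q ^ (n + 1) → r ∈ S := fun r hr h => by
    rw [hS, Finset.mem_union, Finset.mem_union]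
    exact Or.inl (Or.inl (Nat.mem_primeFactors.mpr ⟨hr, h, NeZero.ne _⟩))
  have hMS : ∀ r : ℕ, r.Prime → r ∣ L * q ^ n → r ∈ S := fun r hr h =>
    hNS r hr (h.trans (mul_dvd_mul_left L (pow_dvd_pow q n.le_succ)))
  have hbad : ∀ ℓ : ℕ, ℓ.Prime → (ℓ : ℤ) ∣ W.Δ → ℓ ∈ S := fun ℓ hℓ h => by
    rw [hS, Finset.mem_union, Finset.mem_union]
    exact Or.inl (Or.inr (Nat.mem_primeFactors.mpr
      ⟨hℓ, Int.natCast_dvd.mp h, Int.natAbs_ne_zero.mpr hΔ⟩))
  have hout : ∀ ℓ : ℕ, ℓ.Prime → ℓ ∉ S → ¬ ℓ ∣ L * q ^ (n + 1) ∧ W.IsGoodPrimeFor ℓ ∧ ℓ ≠ p :=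
    fun ℓ hℓ hℓS => ⟨fun h => hℓS (hNS ℓ hℓ h), fun h => hℓS (hbad ℓ hℓ h),
      fun h => hℓS (h ▸ hpS)⟩
  have hcong : ∀ ℓ : ℕ, ℓ.Prime → ℓ ∉ S →
      eigenValue hNS hf (awayGen S ℓ) - ((W.apOfModel ℓ : ℤ) : integralClosure ℤ ℂ) ∈ 𝔪 := by
    intro ℓ hℓ hℓS
    obtain ⟨h1, h2, h3⟩ := hout ℓ hℓ hℓS
    obtain ⟨a, ha, hca⟩ := hc ℓ hℓ h2 h1 h3
    have he : eigenValue hNS hf (awayGen S ℓ) = a :=
      (eigenValue_awayGen hNS hf hℓ hℓS).trans (Subtype.ext ha.symm)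
    rwa [he]
  -- the congruence ideal is the kernel of the residual eigensystem
  have := h𝔪.isPrime
  letI : Field (integralClosure ℤ ℂ ⧸ 𝔪) := Ideal.Quotient.field 𝔪
  have : CharP (integralClosure ℤ ℂ ⧸ 𝔪) p :=
    (CharP.charP_iff_prime_eq_zero hp).mpr (by
      rw [← map_natCast (Ideal.Quotient.mk 𝔪)]
      exact Ideal.Quotient.eq_zero_iff_mem.mpr hp𝔪)
  have hcomp : (Ideal.Quotient.mk 𝔪).comp (eigenValue hNS hf) =
      (ZMod.castHom dvd_rfl (integralClosure ℤ ℂ ⧸ 𝔪)).comp (resChar W p S) := by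
    refine MvPolynomial.ringHom_ext (fun z => ?_) fun i => ?_
    · rw [show (MvPolynomial.C z : AwayHecke S) = (z : AwayHecke S) from (map_intCast _ z),
        map_intCast, map_intCast]
    · obtain ⟨⟨ℓ, hℓ⟩, hℓS⟩ := i
      have hX : (MvPolynomial.X ⟨⟨ℓ, hℓ⟩, hℓS⟩ : AwayHecke S) = awayGen S ℓ := by
        rw [awayGen, dif_pos ⟨hℓ, hℓS⟩]
      rw [hX, RingHom.comp_apply, RingHom.comp_apply, resChar_awayGen W p hℓ hℓS, map_intCast,
        ← map_intCast (Ideal.Quotient.mk 𝔪), Ideal.Quotient.mk_eq_mk_iff_sub_mem]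
      exact hcong ℓ hℓ hℓS
  have hiff : ∀ u, eigenValue hNS hf u ∈ 𝔪 ↔ resChar W p S u = 0 := fun u => by
    rw [← Ideal.Quotient.eq_zero_iff_mem, ← RingHom.comp_apply, hcomp, RingHom.comp_apply,
      map_eq_zero_iff _ (RingHom.injective _)]
  obtain ⟨A, hA⟩ := Galois.exists_liesOverPrime (L := AlgebraicClosure ℚ) hq
  obtain ⟨P, hP0, hpP, hfix, hkill⟩ := exists_fixed_point hNS hf 𝔪 hq hqp hpS
    (torsionQuadratic_of_spec37 hspec _ p) hΔ (fun h => hW q hq h) hbad h𝔪 hp𝔪 hcong hA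
  let E : WeierstrassCurve ℚ := W.map (Int.castRingHom ℚ)
  have : E.IsElliptic := ⟨by
    rw [WeierstrassCurve.map_Δ]
    exact (Int.cast_ne_zero.mpr hΔ).isUnit⟩
  obtain ⟨ℓ, hℓ, hℓS, -, -, hne⟩ := LR.exists_prime_apOfModel_ne E (W := W) ⟨1, one_smul _ _⟩ hp hirr S
  have he : resChar W p S (eisOp S ℓ) ≠ 0 := by
    rw [eisOp, map_sub, resChar_awayGen W p hℓ hℓS,
      show (MvPolynomial.C ((ℓ : ℤ) + 1) : AwayHecke S) = (((ℓ : ℤ) + 1 : ℤ) : AwayHecke S) from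
        map_intCast _ _, map_intCast, sub_ne_zero]
    exact_mod_cast hne
  have hker : ∀ u, awayEval (L * q ^ n) S hMS u = 0 → resChar W p S u = 0 := by
    intro u hu
    by_contra hχ
    obtain ⟨k, hk⟩ := hlow hN hM S hpS hNS hMS u hu ℓ hℓ hℓS A hA P hpP hfix
    obtain ⟨c, hc'⟩ := resChar_surjective W p S (resChar W p S ((u * eisOp S ℓ) ^ k))⁻¹
    have h1 : resChar W p S (1 - c * (u * eisOp S ℓ) ^ k) = 0 := by
      rw [map_sub, map_one, map_mul, hc', inv_mul_cancel₀, sub_self]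
      rw [map_pow, map_mul]
      exact pow_ne_zero _ (mul_ne_zero hχ he)
    have h2 := hkill _ ((hiff _).mpr h1)
    rw [map_sub, map_one, map_mul, map_sub, map_one, map_mul] at h2
    apply hP0
    change P - jHecke _ (awayIncl S c) (jHecke _ (awayIncl S ((u * eisOp S ℓ) ^ k)) P) = 0 at h2
    rwa [hk, map_zero, sub_zero] at h2
  obtain ⟨F, 𝔪', hF, h𝔪', hp𝔪', hF'⟩ :=
    exists_congruent_eigenform hMS (resChar W p S) hker
  refine ⟨F, 𝔪', hF, h𝔪', hp𝔪', fun r hr hgood hrM hrp => ?_⟩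
  have hrS : r ∉ S := by
    rw [hS, Finset.mem_union, Finset.mem_union, Finset.mem_singleton, not_or, not_or]
    refine ⟨⟨fun h => hrM ?_, fun h => hgood
      (Int.natCast_dvd.mpr (Nat.dvd_of_mem_primeFactors h))⟩, hrp⟩
    rcases hr.dvd_mul.mp (Nat.dvd_of_mem_primeFactors h) with h' | h'
    · exact h'.trans (dvd_mul_right L _)
    · exact ((hr.dvd_of_dvd_pow h').trans (dvd_pow_self q hn)).trans (dvd_mul_left _ L)
  exact hF' r hr hrS _ (resChar_awayGen W p hr hrS)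

end Fermat.Agent.LowerSq
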