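import Fermat.Agent.LowerSq.Coprime
import Fermat.Agent.LowerSq.Two.Main

/-!
# From cube-free to squarefree residual levels

The level is first raised to a multiple of `4` to lower the exponent of an odd prime, then the
exponent of `2` is lowered: at `p = 3` by the elementary argument on the lattice, at `p = 5` by
S36 as `5 ∤ 2² - 1`. The squarefree level obtained has no prime `p` which the first level did not
have; other primes are removed afterwards by S38.
-/

set_option autoImplicit false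

noncomputable section

namespace Fermat.Agent.LowerSq

/-- The odd primes other than `p` whose square divides `M`. -/
def badPrimes (p M : ℕ) : Finset ℕ :=
  M.primeFactors.filter fun q => q ≠ 2 ∧ q ≠ p ∧ q ^ 2 ∣ M

theorem mem_badPrimes {p M q : ℕ} (hM : M ≠ 0) :
    q ∈ badPrimes p M ↔ q.Prime ∧ q ≠ 2 ∧ q ≠ p ∧ q ^ 2 ∣ M := by
  rw [badPrimes, Finset.mem_filter, Nat.mem_primeFactors]
  exact ⟨fun h => ⟨h.1.1, h.2⟩,
    fun h => ⟨⟨h.1, (dvd_pow_self q two_ne_zero).trans h.2.2.2, hM⟩, h.2⟩⟩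

/-- Powers of an odd prime dividing `lcm L 4` divide `L`. -/
theorem pow_dvd_of_dvd_lcm_four {r L k : ℕ} (hr : r.Prime) (hr2 : r ≠ 2)
    (h : r ^ k ∣ Nat.lcm L 4) : r ^ k ∣ L := by
  have h4 : Nat.Coprime (r ^ k) 4 := by
    rw [show (4 : ℕ) = 2 ^ 2 by norm_num]
    exact Nat.Coprime.pow _ _ ((Nat.coprime_primes hr Nat.prime_two).mpr hr2)
  exact h4.dvd_of_dvd_mul_right (h.trans (Nat.lcm_dvd_mul L 4))

/-- The state of the induction. -/
structure Lowering (W : WeierstrassCurve ℤ) (p M₀ M : ℕ) : Prop where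
  ne_zero : M ≠ 0
  res : W.IsResiduallyModularOfLevel p M
  hp : p ∣ M → p ∣ M₀
  hp2 : ¬ p ^ 2 ∣ M
  cube : ∀ q : ℕ, q.Prime → q ≠ p → ¬ q ^ 3 ∣ M

variable {W : WeierstrassCurve ℤ} {p : ℕ}

theorem exists_lowering_no_odd (hspec : Spec37) (hkey : StmtKeyTwo) (hp : p.Prime) (hp2 : p ≠ 2)
    (hΔ : W.Δ ≠ 0) (hW : W.IsSemistableModel) (hirr : W.ModRepIsIrreducible p) {M₀ : ℕ} :
    ∀ k M : ℕ, (badPrimes p M).card = k → Lowering W p M₀ M →
      ∃ M', Lowering W p M₀ M' ∧ badPrimes p M' = ∅ := by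
  intro k
  induction k using Nat.strong_induction_on with
  | _ k ih =>
    intro M hk hM
    rcases (badPrimes p M).eq_empty_or_nonempty with h | ⟨q, hqmem⟩
    · exact ⟨M, hM, h⟩
    obtain ⟨hq, hq2, hqp, L, hL⟩ := (mem_badPrimes hM.ne_zero).mp hqmem
    have hL0 : L ≠ 0 := fun e => hM.ne_zero (by rw [hL, e, mul_zero])
    have hqL : ¬ q ∣ L := fun h => hM.cube q hq hqp (by
      rw [hL, pow_succ]; exact mul_dvd_mul_left _ h)
    let L' := Nat.lcm L 4
    have hL' : L' ≠ 0 := Nat.lcm_ne_zero hL0 (by norm_num)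
    have hqL' : ¬ q ∣ L' := fun h => hqL (by
      simpa using pow_dvd_of_dvd_lcm_four hq hq2 (k := 1) (by simpa using h))
    have : NeZero (L' * q ^ (1 + 1)) := ⟨mul_ne_zero hL' (pow_ne_zero _ hq.ne_zero)⟩
    have hres := exists_level_pred hspec hp hq hqp one_ne_zero hL'
      (hkey q L' p hq hq2 hp hp2 (Ne.symm hqp) hqL' (Nat.dvd_lcm_right L 4)) hΔ hW hirr
      (R59.isResiduallyModularOfLevel_of_dvd (M' := L' * q ^ (1 + 1))
        (by rw [hL, mul_comm]; exact mul_dvd_mul_right (Nat.dvd_lcm_left L 4) _) hM.res)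
    rw [pow_one] at hres
    have hodd : ∀ r : ℕ, r.Prime → r ≠ 2 → r ≠ q → ∀ e, r ^ e ∣ L' * q → r ^ e ∣ M :=
      fun r hr hr2 hrq e h => by
        rw [hL]
        refine (pow_dvd_of_dvd_lcm_four hr hr2 ?_).trans (dvd_mul_left L _)
        exact (Nat.Coprime.pow_left e ((Nat.coprime_primes hr hq).mpr hrq)).dvd_of_dvd_mul_right h
    have hM' : Lowering W p M₀ (L' * q) := by
      refine ⟨mul_ne_zero hL' hq.ne_zero, hres, fun h => ?_, fun h => ?_, fun r hr hrp h => ?_⟩
      · exact hM.hp (by simpa using hodd p hp hp2 (Ne.symm hqp) 1 (by simpa using h))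
      · exact hM.hp2 (hodd p hp hp2 (Ne.symm hqp) 2 h)
      · by_cases hrq : r = q
        · subst hrq
          exact hqL' ((dvd_pow_self r two_ne_zero).trans
            (Nat.dvd_of_mul_dvd_mul_right hr.pos (by rwa [← pow_succ])))
        by_cases hr2 : r = 2
        · subst hr2
          have h8 : 2 ^ 3 ∣ L' :=
            (Nat.Coprime.pow_left 3 ((Nat.coprime_primes hr hq).mpr hrq)).dvd_of_dvd_mul_right h
          have h8L : 2 ^ 3 ∣ L := by
            have hf := (Nat.Prime.pow_dvd_iff_le_factorization Nat.prime_two hL').mp h8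
            rw [Nat.factorization_lcm hL0 (by norm_num), Finsupp.sup_apply,
              show (4 : ℕ) = 2 ^ 2 by norm_num, Nat.prime_two.factorization_pow,
              Finsupp.single_eq_same] at hf
            exact (Nat.Prime.pow_dvd_iff_le_factorization Nat.prime_two hL0).mpr (by omega)
          exact hM.cube 2 hr hrp (hL ▸ h8L.trans (dvd_mul_left L _))
        · exact hM.cube r hr hrp (hodd r hr hr2 hrq 3 h)
    refine ih _ ?_ _ rfl hM'
    rw [← hk]
    refine Finset.card_lt_card (Finset.ssubset_iff_of_subset ?_ |>.mpr ⟨q, hqmem, fun h => ?_⟩)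
    · intro r hr
      obtain ⟨hr1, hr2, hrp, hrd⟩ := (mem_badPrimes hM'.ne_zero).mp hr
      refine (mem_badPrimes hM.ne_zero).mpr ⟨hr1, hr2, hrp, ?_⟩
      by_cases hrq : r = q
      · subst hrq; exact ((mem_badPrimes hM.ne_zero).mp hqmem).2.2.2
      · exact hodd r hr1 hr2 hrq 2 hrd
    · exact hqL' (Nat.dvd_of_mul_dvd_mul_right hq.pos
        (by rw [← sq]; exact ((mem_badPrimes hM'.ne_zero).mp h).2.2.2))

/-- A squarefree residual level, given the cases of odd primes and of the prime `2`. -/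
theorem exists_squarefree_level (hspec : Spec37) (hkey : StmtKeyTwo) (hp : p.Prime) (hp2 : p ≠ 2)
    (htwo : ∀ L : ℕ, L ≠ 0 → ¬ 2 ∣ L → W.IsResiduallyModularOfLevel p (L * 2 ^ 2) →
      W.IsResiduallyModularOfLevel p (L * 2)) (hΔ : W.Δ ≠ 0) (hW : W.IsSemistableModel)
    (hirr : W.ModRepIsIrreducible p) {M₀ : ℕ} (hM₀ : 0 < M₀)
    (hres : W.IsResiduallyModularOfLevel p M₀) (hp2M : ¬ p ^ 2 ∣ M₀)
    (hcube : ∀ q : ℕ, q.Prime → q ≠ p → ¬ q ^ 3 ∣ M₀) :
    ∃ M : ℕ, (p ∣ M → p ∣ M₀) ∧ Squarefree M ∧ W.IsResiduallyModularOfLevel p M := by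
  obtain ⟨M, hM, hbad⟩ := exists_lowering_no_odd hspec hkey hp hp2 hΔ hW hirr _ M₀ rfl
    ⟨hM₀.ne', hres, id, hp2M, hcube⟩
  have hsq : ∀ r : ℕ, r.Prime → r ≠ 2 → ¬ r ^ 2 ∣ M := fun r hr hr2 h => by
    by_cases hrp : r = p
    · exact hM.hp2 (hrp ▸ h)
    · exact Finset.notMem_empty r (hbad ▸ (mem_badPrimes hM.ne_zero).mpr ⟨hr, hr2, hrp, h⟩)
  by_cases h4 : 2 ^ 2 ∣ M
  · obtain ⟨L, hL⟩ := h4
    have hL0 : L ≠ 0 := fun e => hM.ne_zero (by rw [hL, e, mul_zero])
    have h2L : ¬ 2 ∣ L := fun h => hM.cube 2 Nat.prime_two (Ne.symm hp2) (by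
      rw [hL, pow_succ]; exact mul_dvd_mul_left _ h)
    have hres' := htwo L hL0 h2L (by rw [mul_comm, ← hL]; exact hM.res)
    have hdvd : L * 2 ∣ M := by rw [hL, mul_comm]; exact mul_dvd_mul_right ⟨2, rfl⟩ L
    refine ⟨L * 2, fun h => hM.hp (h.trans hdvd), ?_, hres'⟩
    refine Nat.squarefree_iff_prime_squarefree.mpr fun r hr h => ?_
    by_cases hr2 : r = 2
    · subst hr2; exact h2L (Nat.dvd_of_mul_dvd_mul_right two_pos h)
    · exact hsq r hr hr2 (by rw [sq]; exact h.trans hdvd)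
  · refine ⟨M, hM.hp, Nat.squarefree_iff_prime_squarefree.mpr fun r hr h => ?_, hM.res⟩
    by_cases hr2 : r = 2
    · subst hr2; exact h4 (by rwa [sq])
    · exact hsq r hr hr2 (by rwa [sq])

/-- Level lowering from S36, S37 and the geometry of `X₀(q² L)`. -/
theorem stmtLower_of (hspec : Spec37) (h36 : CondLevel.CarayolNotUnipotent)
    (hkey : StmtKeyTwo) : R59.StmtLower := by
  intro p hp35 W hΔ hW hirr M₀ hM₀ hres hp2M hcube
  rcases hp35 with rfl | rfl
  · refine exists_squarefree_level hspec hkey Nat.prime_three (by norm_num)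
      (fun L hL h2 h => ?_) hΔ hW hirr hM₀ hres hp2M hcube
    have h' := exists_level_pred hspec Nat.prime_three Nat.prime_two (by norm_num) one_ne_zero hL
      (stmtElemTwo L h2) hΔ hW hirr h
    rwa [pow_one] at h'
  · exact exists_squarefree_level hspec hkey Nat.prime_five (by norm_num)
      (fun L hL h2 h => exists_level_pred_coprime h36 Nat.prime_five (by norm_num) Nat.prime_two
        (by norm_num) (by norm_num) hL h2 hΔ hW hirr h)
      hΔ hW hirr hM₀ hres hp2M hcube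

end Fermat.Agent.LowerSq
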