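import Fermat.Agent.LowerSq.Step
import Fermat.Agent.CondLevel.Compare
import Fermat.Agent.CondLevel.Inputs
import Fermat.Agent.CondLevel.LevelMin
import Fermat.Agent.Eigen.Residue
import Fermat.Agent.LL.Galois.TameGen
import Fermat.Agent.LL.Pair.Points
import Fermat.Agent.R59.Assembly

/-!
# Lowering `q²` to `q` when `p` is prime to `q² - 1`

A representation which is residually unipotent on inertia at `q ≠ p` is unipotent there when
`p ∤ q² - 1`: a Frobenius conjugates a tame generator `τ` to `τ ^ q`, and `q² - 1` is the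
derivative at `2` of the trace of `τ ^ q` minus the trace of `τ`. So by S36 no newform congruent
to a semistable curve has `q² ∥ M`.
-/

set_option autoImplicit false

noncomputable section

open IsLocalRing Polynomial Fermat.Agent.Deform Fermat.Agent.R59.CotGrowth
open scoped WeierstrassCurve.Affine

namespace Fermat.Agent.LowerSq

local notation "GQ" => AlgebraicClosure ℚ ≃ₐ[ℚ] AlgebraicClosure ℚ

section Matrix

variable {R : Type} [CommRing R]

/-- The trace of a power of a matrix of determinant `1`, to second order at trace `2`. -/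
theorem exists_trace_pow_eq (M : Matrix (Fin 2) (Fin 2) R) (hdet : M.det = 1) (k : ℕ) :
    ∃ e, (M ^ k).trace = 2 + (M.trace - 2) * ((k : R) ^ 2 + (M.trace - 2) * e) := by
  have hsq : M * M = M.trace • M - 1 := by
    rw [Matrix.det_fin_two] at hdet
    ext i j
    fin_cases i <;> fin_cases j <;> simp [Matrix.mul_apply, Fin.sum_univ_two, Matrix.trace_fin_two]
    all_goals first | linear_combination -hdet | ring1
  induction k using Nat.twoStepInduction with
  | zero => exact ⟨0, by simp [Matrix.trace_fin_two]⟩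
  | one => exact ⟨0, by simp⟩
  | more k h0 h1 =>
    obtain ⟨e0, he0⟩ := h0
    obtain ⟨e1, he1⟩ := h1
    refine ⟨2 * e1 + ((k + 1 : ℕ) : R) ^ 2 + (M.trace - 2) * e1 - e0, ?_⟩
    have h : M ^ (k + 2) = M.trace • M ^ (k + 1) - M ^ k := by
      rw [pow_add, sq, hsq, mul_sub, mul_one, Matrix.mul_smul, pow_succ]
    rw [h, Matrix.trace_sub, Matrix.trace_smul, smul_eq_mul, he0, he1]
    push_cast
    ring

/-- A matrix with residual characteristic polynomial `(X - 1)²` has `p`-th power `1` modulo the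
maximal ideal. -/
theorem pow_prime_sub_one_mem [IsLocalRing R] {p : ℕ} (hp : (p : R) ∈ maximalIdeal R)
    (M : Matrix (Fin 2) (Fin 2) R) (ht : M.trace - 2 ∈ maximalIdeal R)
    (hd : M.det - 1 ∈ maximalIdeal R) : ∀ i j, (M ^ p - 1) i j ∈ maximalIdeal R := by
  set mk := Ideal.Quotient.mk (maximalIdeal R)
  set N := mk.mapMatrix M
  have htr : N.trace = 2 := by
    show (mk.mapMatrix M).trace = 2
    rw [RingHom.mapMatrix_apply, ← AddMonoidHom.map_trace, ← map_ofNat mk]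
    exact Ideal.Quotient.eq.mpr ht
  have hdet : N.det = 1 := by
    rw [← RingHom.map_det, ← map_one mk]
    exact Ideal.Quotient.eq.mpr hd
  rw [Matrix.trace_fin_two] at htr
  rw [Matrix.det_fin_two] at hdet
  have hY : (N - 1) * (N - 1) = 0 := by
    ext i j
    fin_cases i <;> fin_cases j <;> simp [Matrix.mul_apply, Fin.sum_univ_two]
    · linear_combination N 0 0 * htr - hdet
    · linear_combination N 0 1 * htr
    · linear_combination N 1 0 * htr
    · linear_combination N 1 1 * htr - hdet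
  have hN : mk.mapMatrix (M ^ p) = 1 := by
    rw [map_pow]
    show N ^ p = 1
    rw [← add_sub_cancel 1 N, one_add_pow_eq hY, ← map_natCast mk,
      Ideal.Quotient.eq_zero_iff_mem.mpr hp, zero_smul, add_zero]
  intro i j
  rw [← Ideal.Quotient.eq_zero_iff_mem]
  have h : mk.mapMatrix (M ^ p - 1) = 0 := by rw [map_sub, map_one, hN, sub_self]
  exact congrFun (congrFun h i) j

end Matrix

/-- **Residually unipotent inertia at `q` with `p ∤ q² - 1` is unipotent.** -/
theorem isUnipotentOnInertiaAt_of_residual {A : Type} [CommRing A] [IsLocalRing A] [IsDomain A]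
    [IsNoetherianRing A] (ρ : GaloisRepAdic A) {p q : ℕ} (hp : p.Prime) (hq : q.Prime)
    (hqp : q ≠ p) (hpA : (p : A) ∈ maximalIdeal A) (hpq : ¬ p ∣ q ^ 2 - 1)
    (hres : ∀ P : ValuationSubring (AlgebraicClosure ℚ), P.LiesOverPrime q →
      ∀ σ ∈ P.inertiaSubgroupIn ℚ, LinearMap.trace A ρ.V (ρ.ρ σ) - 2 ∈ maximalIdeal A ∧
        LinearMap.det (ρ.ρ σ) - 1 ∈ maximalIdeal A) :
    ρ.IsUnipotentOnInertiaAt q := by
  obtain ⟨P, φ, hP, hφ⟩ := Galois.exists_place_isFrobeniusAt hq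
  obtain ⟨τ, hτ⟩ := LL.exists_isTameGen hp hq hqp hP hφ
  obtain ⟨b⟩ := finBasisV ρ
  have hres' : ∀ σ ∈ P.inertiaSubgroupIn ℚ, (matOf ρ b σ).trace - 2 ∈ maximalIdeal A ∧
      (matOf ρ b σ).det - 1 ∈ maximalIdeal A := fun σ hσ => by
    rw [matOf_apply, LinearMap.det_toMatrix, ← LinearMap.trace_eq_matrix_trace]
    exact hres P hP σ hσ
  have key : ∀ n : ℕ, ∃ u : (Matrix (Fin 2) (Fin 2) (A ⧸ maximalIdeal A ^ (n + 1)))ˣ,
      u.val = (Ideal.Quotient.mk (maximalIdeal A ^ (n + 1))).mapMatrix (matOf ρ b τ) ∧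
      (∀ σ ∈ P.inertiaSubgroupIn ℚ, ∃ z : ℤ,
        (u ^ z).val = (Ideal.Quotient.mk (maximalIdeal A ^ (n + 1))).mapMatrix (matOf ρ b σ)) ∧
      (Ideal.Quotient.mk (maximalIdeal A ^ (n + 1))).mapMatrix (matOf ρ b φ * matOf ρ b τ) =
        (Ideal.Quotient.mk (maximalIdeal A ^ (n + 1))).mapMatrix
          (matOf ρ b τ ^ q * matOf ρ b φ) := by
    intro n
    obtain ⟨L, hL, hfix⟩ := isContRep_matOf ρ b (n + 1)
    let mk : A →+* A ⧸ maximalIdeal A ^ (n + 1) := Ideal.Quotient.mk _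
    have hker : ∀ X : Matrix (Fin 2) (Fin 2) A,
        (∀ a b, (X - 1) a b ∈ maximalIdeal A ^ (n + 1)) → mk.mapMatrix X = 1 := by
      intro X hX
      rw [← sub_eq_zero, ← map_one mk.mapMatrix, ← map_sub]
      ext a b
      exact Ideal.Quotient.eq_zero_iff_mem.mpr (hX a b)
    let f : P.decompositionSubgroup ℚ →* (Matrix (Fin 2) (Fin 2) (A ⧸ maximalIdeal A ^ (n + 1)))ˣ :=
      ((mapRep mk (matOf ρ b)).comp (P.decompositionSubgroup ℚ).subtype).toHomUnits
    let τ' : P.decompositionSubgroup ℚ := ⟨τ, Galois.inertia_le_decomposition P hτ.mem⟩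
    let φ' : P.decompositionSubgroup ℚ := ⟨φ, hφ.1⟩
    obtain ⟨h1, h2⟩ := hτ.gen _ f L hL (fun σ hσ => Units.ext (hker _ (hfix σ.1 hσ)))
      (fun σ hσ => ⟨n + 1, Units.ext (by
        rw [Units.val_pow_eq_pow_val]
        show mk.mapMatrix (matOf ρ b σ.1) ^ p ^ (n + 1) = 1
        rw [← map_pow, show p ^ (n + 1) = p * p ^ n from pow_succ' p n, pow_mul]
        exact hker _ (LL.pow_pow_sub_one_mem hpA (pow_prime_sub_one_mem hpA _
          (hres' σ.1 hσ).1 (hres' σ.1 hσ).2) n))⟩) τ' φ' rfl rfl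
    refine ⟨f τ', rfl, fun σ hσ => ?_, ?_⟩
    · obtain ⟨z, hz⟩ := Subgroup.mem_zpowers_iff.mp
        (h1 ⟨σ, Galois.inertia_le_decomposition P hσ⟩ hσ)
      exact ⟨z, congrArg Units.val hz⟩
    · rw [map_mul, map_mul, map_pow]
      have h := congrArg Units.val h2
      rw [Units.val_mul, Units.val_mul, Units.val_pow_eq_pow_val] at h
      exact h
  set T := matOf ρ b τ
  set F := matOf ρ b φ
  have hrel : F * T = T ^ q * F := by
    ext i j
    refine DefCond.eq_of_forall_mk_eq fun n => ?_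
    obtain ⟨-, -, -, h⟩ := key n
    exact congrFun (congrFun h i) j
  have hFu : F * matOf ρ b φ⁻¹ = 1 := by rw [← map_mul, mul_inv_cancel, map_one]
  have hTu : T * matOf ρ b τ⁻¹ = 1 := by rw [← map_mul, mul_inv_cancel, map_one]
  have hconj : T ^ q = F * T * matOf ρ b φ⁻¹ := by rw [hrel, mul_assoc, hFu, mul_one]
  have hdetT : T.det = 1 := by
    have h := congrArg Matrix.det hconj
    rw [Matrix.det_pow, Matrix.det_mul, Matrix.det_mul, mul_right_comm, ← Matrix.det_mul, hFu,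
      Matrix.det_one, one_mul] at h
    have h1 : T.det ^ (q - 1) = 1 := by
      have hu : T.det * (matOf ρ b τ⁻¹).det = 1 := by rw [← Matrix.det_mul, hTu, Matrix.det_one]
      calc T.det ^ (q - 1) = T.det ^ (q - 1) * (T.det * (matOf ρ b τ⁻¹).det) := by rw [hu, mul_one]
        _ = 1 := by rw [← mul_assoc, ← pow_succ, Nat.sub_add_cancel hq.one_le, h, hu]
    refine LL.Pair.eq_one_of_pow_eq_one (maximalIdeal A) hpA ?_ h1 (hres' τ hτ.mem).2
    refine hp.coprime_iff_not_dvd.mpr fun hd => hpq (hd.trans ?_)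
    rw [show q ^ 2 - 1 = (q + 1) * (q - 1) by simpa using Nat.sq_sub_sq q 1]
    exact dvd_mul_left _ _
  have htrT : T.trace = 2 := by
    obtain ⟨e, he⟩ := exists_trace_pow_eq T hdetT q
    rw [hconj, Matrix.trace_mul_comm, ← mul_assoc, ← map_mul (matOf ρ b), inv_mul_cancel,
      map_one, one_mul] at he
    by_contra hne
    have h0 : ((q ^ 2 - 1 : ℕ) : A) + (T.trace - 2) * e = 0 := by
      refine (mul_eq_zero.mp ?_).resolve_left (sub_ne_zero.mpr hne)
      rw [Nat.cast_sub (Nat.one_le_pow _ _ hq.pos), Nat.cast_pow, Nat.cast_one]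
      linear_combination -he
    have hmem : ((q ^ 2 - 1 : ℕ) : A) ∈ maximalIdeal A := by
      rw [eq_neg_of_add_eq_zero_left h0]
      exact (maximalIdeal A).neg_mem (Ideal.mul_mem_right _ _ (hres' τ hτ.mem).1)
    have : CharP (ResidueField A) p := by
      refine (CharP.charP_iff_prime_eq_zero hp).mpr ?_
      rw [← map_natCast (residue A)]
      exact (residue_eq_zero_iff _).mpr hpA
    refine hpq ((CharP.cast_eq_zero_iff (ResidueField A) p _).mp ?_)
    rw [← map_natCast (residue A)]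
    exact (residue_eq_zero_iff _).mpr hmem
  refine LL.Pair.isUnipotentOnInertiaAt_of_place hq hP fun σ hσ => ?_
  have hσ2 : (matOf ρ b σ).trace = 2 ∧ (matOf ρ b σ).det = 1 := by
    refine ⟨DefCond.eq_of_forall_mk_eq fun n => ?_, DefCond.eq_of_forall_mk_eq fun n => ?_⟩ <;>
    · obtain ⟨u, hu, hgen, -⟩ := key n
      obtain ⟨z, hz⟩ := hgen σ hσ
      set mk := Ideal.Quotient.mk (maximalIdeal A ^ (n + 1))
      have htr : u.val.trace = 2 := by
        rw [hu, RingHom.mapMatrix_apply, ← AddMonoidHom.map_trace, htrT, map_ofNat]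
      have hdet : u.val.det = 1 := by rw [hu, ← RingHom.map_det, hdetT, map_one]
      rw [Matrix.trace_fin_two] at htr
      rw [Matrix.det_fin_two] at hdet
      have hY : (u.val - 1) * (u.val - 1) = 0 := by
        ext i j
        fin_cases i <;> fin_cases j <;> simp [Matrix.mul_apply, Fin.sum_univ_two]
        · linear_combination u.val 0 0 * htr - hdet
        · linear_combination u.val 0 1 * htr
        · linear_combination u.val 1 0 * htr
        · linear_combination u.val 1 1 * htr - hdet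
      rw [unit_zpow_val u hY] at hz
      first
      | (rw [AddMonoidHom.map_trace, ← RingHom.mapMatrix_apply, ← hz, Matrix.trace_fin_two,
            map_ofNat]
         simp
         linear_combination (z : A ⧸ maximalIdeal A ^ (n + 1)) * htr)
      | (rw [RingHom.map_det, ← hz, Matrix.det_fin_two, map_one]
         simp
         linear_combination ((z : A ⧸ maximalIdeal A ^ (n + 1)) -
           (z : A ⧸ maximalIdeal A ^ (n + 1)) ^ 2) * htr +
           (z : A ⧸ maximalIdeal A ^ (n + 1)) ^ 2 * hdet)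
  rw [CondLevel.charpoly_eq_of_finrank_two ρ.finrank_eq, LinearMap.trace_eq_matrix_trace A b,
    ← matOf_apply, hσ2.1, ← LinearMap.det_toMatrix b, ← matOf_apply, hσ2.2, map_one, map_ofNat]
  ring

variable {W : WeierstrassCurve ℤ} {p q : ℕ}

/-- The traces and determinants of the torsion of a semistable curve on inertia at `q ≠ p`. -/
theorem tors_inertia (hΔ : W.Δ ≠ 0) [Fact p.Prime] (hq : q.Prime) (hqp : q ≠ p)
    (hss : (q : ℤ) ∣ W.Δ → ¬ (q : ℤ) ∣ W.c₄) {P : ValuationSubring (AlgebraicClosure ℚ)}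
    (hP : P.LiesOverPrime q) {σ : GQ} (hσ : σ ∈ P.inertiaSubgroupIn ℚ) :
    LinearMap.trace (ZMod p) _ (CondLevel.rhoTors W p σ) = 2 ∧
      LinearMap.det (CondLevel.rhoTors W p σ) = 1 := by
  have hqd : ¬ q ∣ p := fun h => hqp ((Nat.prime_dvd_prime_iff_eq hq Fact.out).mp h)
  refine ⟨?_, by rw [CondLevel.det_rhoTors W hΔ, CondLevel.cycChar_inertia p hq hqd hP hσ]⟩
  have := CondLevel.moduleFinite_tors W hΔ p
  have hu := CondLevel.inertia_unipotent W hΔ hq hss hqd hP hσ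
  have hnil : IsNilpotent (CondLevel.rhoTors W p σ - 1) := by
    refine ⟨2, ?_⟩
    rw [sq, sub_mul, mul_sub, mul_one, one_mul, ← sq, hu, two_smul]
    abel
  have h := (LinearMap.isNilpotent_trace_of_isNilpotent hnil).eq_zero
  rw [map_sub, LinearMap.trace_one, CondLevel.finrank_tors W hΔ p, sub_eq_zero] at h
  rw [h, Nat.cast_ofNat]

/-- **A newform congruent to a semistable curve does not have `q² ∥ M` when `p ∤ q² - 1`.** -/
theorem factorization_ne_two_of_congruent (h36 : CondLevel.CarayolNotUnipotent) [Fact p.Prime]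
    (hp2 : p ≠ 2) (hq : q.Prime) (hqp : q ≠ p) (hpq : ¬ p ∣ q ^ 2 - 1) (hΔ : W.Δ ≠ 0)
    (hW : W.IsSemistableModel) (hirr : W.ModRepIsIrreducible p) {M : ℕ} [NeZero M]
    {g : CuspForm (CongruenceSubgroup.Gamma0 M) 2} (hg : g.IsNewform) (S : Finset ℕ)
    (hpS : p ∈ S) (hMS : ∀ r : ℕ, r.Prime → r ∣ M → r ∈ S)
    (hbad : ∀ ℓ : ℕ, ℓ.Prime → (ℓ : ℤ) ∣ W.Δ → ℓ ∈ S) (𝔪 : Ideal (integralClosure ℤ ℂ))
    [𝔪.IsMaximal] (hp𝔪 : (p : integralClosure ℤ ℂ) ∈ 𝔪)
    (hcong : ∀ ℓ : ℕ, ℓ.Prime → ℓ ∉ S → ∃ a : integralClosure ℤ ℂ,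
      (a : ℂ) = ModularFormClass.qCoeff g ℓ ∧
        a - ((W.apOfModel ℓ : ℤ) : integralClosure ℤ ℂ) ∈ 𝔪) :
    M.factorization q ≠ 2 := by
  intro hv
  have hp : p.Prime := Fact.out
  have := MF.IntStruct.moduleFinite_heckeAlgebra M 2 (∅ : Set ℕ)
  have := MF.IntStruct.moduleFinite_heckeAlgebra M 2 (↑S : Set ℕ)
  let : Field (integralClosure ℤ ℂ ⧸ 𝔪) := Ideal.Quotient.field 𝔪
  have : CharP (integralClosure ℤ ℂ ⧸ 𝔪) p := Eigen.charP_quotient_maximal hp 𝔪 hp𝔪
  obtain ⟨O, _, _, _, _, _, _, χ, ι, hpO, hker, -, hT⟩ :=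
    Eigen.exists_point_of_eigenform hg.1 (↑S : Set ℕ) hp (Ideal.Quotient.mk 𝔪)
  let chig := Eigen.eigenChar hg.1 (↑S : Set ℕ)
  let iota : chig.range →+* O := RingHom.liftOfSurjective chig.rangeRestrict
    chig.rangeRestrict_surjective ⟨χ, by
      rw [RingHom.ker_rangeRestrict, ← hker]⟩
  have hiota : ∀ t, iota (chig.rangeRestrict t) = χ t := fun t =>
    RingHom.liftOfRightInverse_comp_apply _ _ _ _ t
  have hmem : ∀ (ℓ : ℕ) (hℓ : ℓ.Prime) (hℓM : ¬ ℓ ∣ M) (hℓS : ℓ ∉ (↑S : Set ℕ)),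
      χ (CuspForm.heckeAlgebra.T hℓ hℓM hℓS) - (W.apOfModel ℓ : O) ∈ maximalIdeal O := by
    intro ℓ hℓ hℓM hℓS
    rw [← residue_eq_zero_iff, map_sub, map_intCast, sub_eq_zero]
    refine ι.injective ?_
    obtain ⟨a, ha, hca⟩ := hcong ℓ hℓ (fun h => hℓS (Finset.mem_coe.mpr h))
    rw [hT ℓ hℓ hℓM hℓS, show Eigen.intCoeff hg.1 ℓ = a from Subtype.ext ha.symm, map_intCast,
      ← map_intCast (Ideal.Quotient.mk 𝔪), Ideal.Quotient.mk_eq_mk_iff_sub_mem]
    exact hca
  have hp' : ∀ (O'' : Type) [CommRing O''] [IsLocalRing O''] [Algebra O O'']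
      [IsLocalHom (algebraMap O O'')], (p : O'') ∈ maximalIdeal O'' := by
    intro O'' _ _ _ _
    rw [← map_natCast (algebraMap O O'')]
    exact map_nonunit _ _ hpO
  have hres : ∀ (O'' : Type) [CommRing O''] [IsDomain O''] [IsDiscreteValuationRing O'']
      [Algebra O O''] [IsLocalHom (algebraMap O O'')] (ρ : GaloisRepAdic O'')
      (_ : ∀ (ℓ : ℕ) (hℓ : ℓ.Prime) (_ : ℓ ≠ p) (hℓM : ¬ ℓ ∣ M) (hℓS : ℓ ∉ (↑S : Set ℕ)),
        ∀ A : ValuationSubring (AlgebraicClosure ℚ), A.LiesOverPrime ℓ →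
          ∀ σ : GQ, A.IsFrobeniusAt σ ℓ → LinearMap.charpoly (ρ.ρ σ) = X ^ 2 - C (algebraMap O O''
            ((iota.comp chig.rangeRestrict) (CuspForm.heckeAlgebra.T hℓ hℓM hℓS))) * X
              + C ((ℓ : O''))) [CharP (ResidueField O'') p] (σ : GQ),
      LinearMap.trace _ ρ.residual.V (ρ.residual.ρ σ) =
          ZMod.castHom (dvd_refl p) _ (LinearMap.trace (ZMod p) _ (CondLevel.rhoTors W p σ)) ∧
        LinearMap.det (ρ.residual.ρ σ) =
          ZMod.castHom (dvd_refl p) _ (LinearMap.det (CondLevel.rhoTors W p σ)) := by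
    intro O'' _ _ _ _ _ ρ hρ _ σ
    refine CondLevel.residual_trace_det_eq W hΔ p ρ.residual S hpS hbad ?_ σ
    intro _ _ _ _ _ g' _ ℓ hℓ hℓS A hA hg'
    obtain ⟨ht, hd⟩ := CondLevel.trace_det_of_charpoly ρ.finrank_eq _
      (hρ ℓ hℓ (fun h => hℓS (h ▸ hpS)) (fun h => hℓS (hMS ℓ hℓ h))
        (fun h => hℓS (Finset.mem_coe.mp h)) A hA g' hg')
    rw [CondLevel.charpoly_eq_of_finrank_two ρ.residual.finrank_eq,
      (CondLevel.trace_det_residual ρ g').1, (CondLevel.trace_det_residual ρ g').2, ht, hd,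
      map_natCast]
    suffices h : residue O'' (algebraMap O O'' ((iota.comp chig.rangeRestrict)
        (CuspForm.heckeAlgebra.T hℓ (fun h => hℓS (hMS ℓ hℓ h))
          (fun h => hℓS (Finset.mem_coe.mp h))))) = (W.apOfModel ℓ : ResidueField O'') by rw [h]
    rw [RingHom.comp_apply, hiota, ← sub_eq_zero, ← map_intCast (residue O''), ← map_sub,
      residue_eq_zero_iff, ← map_intCast (algebraMap O O''), ← map_sub]
    exact map_nonunit _ _ (hmem ℓ hℓ _ _)
  obtain ⟨O'', _, _, _, _, _, _, _, _, hloc, -, ρ, hρ, hnu⟩ := h36 hg p S O hpO hp2 chig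
    (fun ℓ hℓ hℓM hℓS => Eigen.eigenChar_T hg.1 _ hℓ hℓM hℓS) iota hpS hMS (by
      intro O'' _ _ _ _ _ _ _ _ _ _ ρ hρ
      have : CharP (ResidueField O'') p := CondLevel.charP_residueField p (hp' O'')
      exact CondLevel.residual_isAbsolutelyIrreducible W hΔ p hp2 hirr ρ.residual
        (hres O'' ρ hρ))
  have : CharP (ResidueField O'') p := CondLevel.charP_residueField p (hp' O'')
  refine hnu q hq hqp hv (isUnipotentOnInertiaAt_of_residual ρ hp hq hqp (hp' O'') hpq ?_)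
  intro P hP σ hσ
  obtain ⟨h1, h2⟩ := hres O'' ρ (fun ℓ hℓ _ => hρ ℓ hℓ) σ
  obtain ⟨h3, h4⟩ := tors_inertia hΔ hq hqp (hW q hq) hP hσ
  rw [(CondLevel.trace_det_residual ρ σ).1, h3, map_ofNat] at h1
  rw [(CondLevel.trace_det_residual ρ σ).2, h4, map_one] at h2
  exact ⟨by rw [← residue_eq_zero_iff, map_sub, h1, map_ofNat, sub_self],
    by rw [← residue_eq_zero_iff, map_sub, h2, map_one, sub_self]⟩

/-- **Residual modularity descends from level `L q²` to level `L q` when `p ∤ q² - 1`.** -/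
theorem exists_level_pred_coprime (h36 : CondLevel.CarayolNotUnipotent) (hp : p.Prime)
    (hp2 : p ≠ 2) (hq : q.Prime) (hqp : q ≠ p) (hpq : ¬ p ∣ q ^ 2 - 1) {L : ℕ} (hL : L ≠ 0)
    (hqL : ¬ q ∣ L) (hΔ : W.Δ ≠ 0) (hW : W.IsSemistableModel) (hirr : W.ModRepIsIrreducible p)
    (hres : W.IsResiduallyModularOfLevel p (L * q ^ 2)) :
    W.IsResiduallyModularOfLevel p (L * q) := by
  have : Fact p.Prime := ⟨hp⟩
  have hN0 : L * q ^ 2 ≠ 0 := mul_ne_zero hL (pow_ne_zero _ hq.ne_zero)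
  have : NeZero (L * q ^ 2) := ⟨hN0⟩
  have : NeZero (L * q) := ⟨mul_ne_zero hL hq.ne_zero⟩
  obtain ⟨f, 𝔪, hf, h𝔪, hp𝔪, hc⟩ := hres
  obtain ⟨M, hMN, hM0, g, hg, hgf⟩ := CondLevel.exists_newform_of_eigenform hN0 f hf
  have : NeZero M := ⟨hM0⟩
  set S : Finset ℕ := insert p ((L * q ^ 2).primeFactors ∪ W.Δ.natAbs.primeFactors) with hS
  have hNS : ∀ r : ℕ, r.Prime → r ∣ L * q ^ 2 → r ∈ S := fun r hr h => by
    rw [hS, Finset.mem_insert, Finset.mem_union]
    exact Or.inr (Or.inl (Nat.mem_primeFactors.mpr ⟨hr, h, hN0⟩))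
  have hbad : ∀ ℓ : ℕ, ℓ.Prime → (ℓ : ℤ) ∣ W.Δ → ℓ ∈ S := fun ℓ hℓ h => by
    rw [hS, Finset.mem_insert, Finset.mem_union]
    exact Or.inr (Or.inr (Nat.mem_primeFactors.mpr
      ⟨hℓ, Int.natCast_dvd.mp h, Int.natAbs_ne_zero.mpr hΔ⟩))
  have hv : M.factorization q ≠ 2 := factorization_ne_two_of_congruent h36 hp2 hq hqp hpq hΔ hW
    hirr hg S (Finset.mem_insert_self _ _) (fun r hr h => hNS r hr (h.trans hMN)) hbad 𝔪 hp𝔪
    fun ℓ hℓ hℓS => by
      have hℓN : ¬ ℓ ∣ L * q ^ 2 := fun h => hℓS (hNS ℓ hℓ h)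
      obtain ⟨a, ha, hca⟩ := hc ℓ hℓ (fun h => hℓS (hbad ℓ hℓ h)) hℓN
        (fun h => hℓS (h ▸ Finset.mem_insert_self _ _))
      exact ⟨a, ha.trans (hgf ℓ hℓ hℓN).symm, hca⟩
  have hle : M.factorization q ≤ 2 := by
    have h := (Nat.factorization_le_iff_dvd hM0 hN0).mpr hMN q
    rwa [Nat.factorization_mul hL (pow_ne_zero _ hq.ne_zero), Finsupp.add_apply,
      Nat.factorization_eq_zero_of_not_dvd hqL, hq.factorization_pow, Finsupp.single_eq_same,
      zero_add] at h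
  have hMLq : M ∣ L * q := by
    refine (Nat.factorization_le_iff_dvd hM0 (mul_ne_zero hL hq.ne_zero)).mp fun r => ?_
    have h := (Nat.factorization_le_iff_dvd hM0 hN0).mpr hMN r
    rw [Nat.factorization_mul hL (pow_ne_zero _ hq.ne_zero), Finsupp.add_apply,
      hq.factorization_pow] at h
    rw [Nat.factorization_mul hL hq.ne_zero, Finsupp.add_apply, hq.factorization]
    by_cases hr : r = q
    · subst hr
      rw [Finsupp.single_eq_same] at h ⊢
      omega
    · rw [Finsupp.single_eq_of_ne hr] at h ⊢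
      exact h
  obtain ⟨g', hg', hg'g⟩ := Newforms.exists_eigenform_of_dvd hMLq hg.1
  refine ⟨g', 𝔪, hg', h𝔪, hp𝔪, fun ℓ hℓ hgood hℓL hℓp => ?_⟩
  have hℓN : ¬ ℓ ∣ L * q ^ 2 := fun h => hℓL <| by
    rcases hℓ.dvd_mul.mp h with h | h
    · exact h.trans (dvd_mul_right L q)
    · exact (hℓ.dvd_of_dvd_pow h).trans (dvd_mul_left q L)
  obtain ⟨a, ha, hca⟩ := hc ℓ hℓ hgood hℓN hℓp
  exact ⟨a, by rw [hg'g ℓ hℓ hℓL, hgf ℓ hℓ hℓN, ha], hca⟩

end Fermat.Agent.LowerSq
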