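import Fermat.Agent.BAD.Core.Graded
import Fermat.Agent.FF.RiemannRoch
import Fermat.Agent.FF.Models

/-!
# The number of crossings of a curve with two branches

`g(F) + 1 = 2 g(C) + #nodes`: the graded node description computes the Riemann-Roch spaces of the
generic fibre.
-/

set_option autoImplicit false

noncomputable section

open AlgebraicCurve IntermediateField Polynomial Fermat.Agent.RED

namespace Fermat.Agent.LowerSq

variable {L : Type*} [Field L] {F : Type*} [Field F] [Algebra L F]

theorem twistSpace_one_eq [IsAlgClosed L] [FF.IsFunctionField L F] {u : F} (hu : u ≠ 0) (m : ℕ) :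
    BAD.twistSpace L u 1 1 m = riemannRochSpace (m • FF.poleDivisor L u) := by
  have key : ∀ a : F, (a ∈ coordRing L u ∧ a / u ^ m ∈ coordRing L u⁻¹) ↔
      a ∈ riemannRochSpace (m • FF.poleDivisor L u) := by
    intro a
    show ((aeval (R := L) u).toRingHom.IsIntegralElem a ∧
      (aeval (R := L) u⁻¹).toRingHom.IsIntegralElem (a / u ^ m)) ↔ _
    rw [FF.isIntegralElem_aeval_iff, FF.isIntegralElem_aeval_iff, mem_riemannRochSpace_iff]
    rcases eq_or_ne a 0 with rfl | ha
    · simp
    have hord : ∀ v : Place L F, v.ord (a / u ^ m) = v.ord a - m * v.ord u := fun v => by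
      rw [div_eq_mul_inv, v.ord_mul ha (inv_ne_zero (pow_ne_zero _ hu)), v.ord_inv,
        ← zpow_natCast, v.ord_zpow]
      ring
    have hpole : ∀ v : Place L F, (m • FF.poleDivisor L u) v = (m : ℤ) * max (-v.ord u) 0 :=
      fun v => by rw [Finsupp.smul_apply, FF.poleDivisor_apply, nsmul_eq_mul]
    simp only [ha, false_or, Place.ord_inv, hord, hpole]
    constructor
    · rintro ⟨h1, h2⟩ v
      rcases le_or_gt 0 (v.ord u) with hv | hv
      · rw [max_eq_right (by omega), mul_zero, neg_zero]
        exact h1 v hv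
      · rw [max_eq_left (by omega), mul_neg, neg_neg]
        have := h2 v (by omega)
        linarith
    · intro h
      refine ⟨fun v hv => ?_, fun v hv => ?_⟩
      · have := h v
        rw [max_eq_right (by omega), mul_zero, neg_zero] at this
        exact this
      · have := h v
        rw [max_eq_left (by omega), mul_neg, neg_neg] at this
        linarith
  refine le_antisymm (Submodule.span_le.mpr fun a ha => ?_) fun a ha => ?_
  · refine (key a).mp ?_
    simpa [BAD.TwistCond] using ha
  · refine Submodule.subset_span ?_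
    simpa [BAD.TwistCond] using (key a).mpr ha

variable {k : Type*} [Field k] {A : ValuationSubring L} {π : A →+* k}
  {C : Type*} [Field C] [Algebra k C]

open scoped Classical in
/-- The sections glued at the crossings have codimension the number of crossings. -/
theorem exists_finrank_Nm_add [FF.IsFunctionField k C] (D : BAD.BadCurve π F C) :
    ∃ m₁ : ℕ, ∀ m, m₁ ≤ m → Module.finrank k (D.Nm m) + D.nodes.card
      = 2 * Module.finrank k (riemannRochSpace (m • D.pole)) := by
  obtain ⟨g, m₁, h⟩ := D.exists_lev_eq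
  refine ⟨m₁, fun m hm => ?_⟩
  obtain ⟨hfin, -, hv⟩ := h m hm
  let Ψ : (Fin 2 → riemannRochSpace (m • D.pole)) →ₗ[k] (D.nodes → k) :=
    LinearMap.pi fun s => (D.levHom m s.1.1).comp (LinearMap.proj 0) -
      (D.levHom m s.1.2).comp (LinearMap.proj 1)
  have hinj1 : ∀ s ∈ D.nodes, ∀ s' ∈ D.nodes, s.1 = s'.1 → s = s' := by
    rintro ⟨x, y⟩ hs ⟨x', y'⟩ hs' (rfl : x = x')
    exact Prod.ext rfl (D.isNode_fst_inj (D.mem_nodes.mp hs) (D.mem_nodes.mp hs'))
  have hsurj : LinearMap.range Ψ = ⊤ := by
    rw [LinearMap.range_eq_top]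
    intro v
    obtain ⟨c, hc, hcv⟩ := hv (D.nodes.image Prod.fst) Finset.card_image_le fun x =>
      if hx : ∃ s : D.nodes, s.1.1 = x then v hx.choose else 0
    refine ⟨![⟨c, hc⟩, 0], funext fun s => ?_⟩
    have hex : ∃ t : D.nodes, t.1.1 = s.1.1 := ⟨s, rfl⟩
    have hst : hex.choose = s := Subtype.ext (hinj1 _ hex.choose.2 _ s.2 hex.choose_spec)
    have h1 := hcv s.1.1 (Finset.mem_image_of_mem _ s.2)
    rw [dif_pos hex, hst] at h1
    simp only [Ψ, LinearMap.pi_apply, LinearMap.sub_apply, LinearMap.coe_comp,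
      Function.comp_apply, LinearMap.coe_proj, Function.eval, Matrix.cons_val_zero,
      Matrix.cons_val_one, map_zero, sub_zero]
    rw [D.levHom_apply]
    exact h1
  let incl : (Fin 2 → riemannRochSpace (m • D.pole)) →ₗ[k] (Fin 2 → C) :=
    LinearMap.pi fun i => (riemannRochSpace (m • D.pole)).subtype.comp (LinearMap.proj i)
  have hincl : Function.Injective incl := fun p r hpr =>
    funext fun i => Subtype.ext (congrFun hpr i)
  have hker : (LinearMap.ker Ψ).map incl = D.Nm m := by
    ext p
    rw [D.mem_Nm_iff]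
    constructor
    · rintro ⟨r, hr, rfl⟩
      refine ⟨fun i => (r i).2, fun s hs => ?_⟩
      have h1 := congrFun (LinearMap.mem_ker.mp hr) ⟨s, hs⟩
      exact sub_eq_zero.mp h1
    · rintro ⟨hp, hp'⟩
      exact ⟨fun i => ⟨p i, hp i⟩, LinearMap.mem_ker.mpr (funext fun s =>
        sub_eq_zero.mpr (hp' s.1 s.2)), rfl⟩
  have hk := (Submodule.equivMapOfInjective incl hincl (LinearMap.ker Ψ)).finrank_eq
  have hrn := Ψ.finrank_range_add_finrank_ker
  rw [hsurj, finrank_top, Module.finrank_pi, Fintype.card_coe, hk, hker,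
    Module.finrank_pi_fintype, Finset.sum_const, Finset.card_univ, Fintype.card_fin,
    smul_eq_mul] at hrn
  omega

/-- **The crossings count the defect of the genus.** -/
theorem genus_add_one_eq [IsAlgClosed L] [IsAlgClosed k] [FF.IsFunctionField L F]
    [FF.IsFunctionField k C] (D : BAD.BadCurve π F C) :
    genusFF L F + 1 = 2 * genusFF k C + D.nodes.card := by
  obtain ⟨g, m₀, h⟩ := D.exists_redSpace_eq
  have hu := D.chartFin.transcendental_u
  have hu0 : D.u ≠ 0 := fun h0 => hu (h0 ▸ isAlgebraic_zero)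
  -- the constant of Riemann-Roch on `C` is the genus
  set n : ℕ := Module.finrank L⟮D.u⟯ F
  have hn0 : 0 < n := by
    have := D.chartFin.finite_F
    exact Module.finrank_pos
  have hd : (1 : ℤ) ≤ D.d := by exact_mod_cast D.d_pos
  -- the two ways to compute the sections of the generic fibre
  have e : ∀ m : ℕ, m₀ + 2 * genusFF L F ≤ m →
      (m : ℤ) * n + 1 - genusFF L F = 2 * (m * D.d + 1 - g) - D.nodes.card := by
    intro m hm
    have h1 := (h m (by omega)).2.2
    rw [twistSpace_one_eq hu0 m] at h1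
    have hdeg : Divisor.degree (m • FF.poleDivisor L D.u) = (m : ℤ) * n := by
      rw [map_nsmul, FF.degree_poleDivisor hu, nsmul_eq_mul]
    rw [FF.finrank_riemannRochSpace_of_lt_degree (by
      rw [hdeg]
      have : (m : ℤ) ≤ (m : ℤ) * n := le_mul_of_one_le_right (by positivity) (by exact_mod_cast hn0)
      omega), hdeg] at h1
    exact h1
  have hn : (n : ℤ) = 2 * D.d := by
    have e1 := e (m₀ + 2 * genusFF L F) le_rfl
    have e2 := e (m₀ + 2 * genusFF L F + 1) (Nat.le_succ _)
    push_cast at e1 e2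
    linarith
  have e1 := e (m₀ + 2 * genusFF L F) le_rfl
  rw [hn] at e1
  -- `g` is the genus of `C`
  have hg : g = genusFF k C := by
    obtain ⟨m₁, hN⟩ := exists_finrank_Nm_add D
    obtain ⟨m, hm₀, hm₁, hm₂⟩ : ∃ m : ℕ, m₀ ≤ m ∧ m₁ ≤ m ∧ 2 * genusFF k C ≤ m :=
      ⟨m₀ + m₁ + 2 * genusFF k C, by omega, by omega, by omega⟩
    obtain ⟨hWN, -, hdim⟩ := h m hm₀
    have hdeg : Divisor.degree (m • D.pole) = (m : ℤ) * D.d := by
      rw [map_nsmul, D.degree_pole, nsmul_eq_mul]
    have hrr := FF.finrank_riemannRochSpace_of_lt_degree (D := m • D.pole) (by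
      rw [hdeg]
      have : (m : ℤ) ≤ (m : ℤ) * D.d := le_mul_of_one_le_right (by positivity) hd
      omega)
    rw [hdeg] at hrr
    have : FiniteDimensional L (BAD.twistSpace L D.u 1 1 m) := (h m hm₀).2.1
    obtain ⟨r, v, hv, hspan⟩ := D.chartFin.exists_reduced_basis (BAD.twistSpace L D.u 1 1 m)
    have hf := D.finrank_redSpace hv
    rw [hspan] at hf
    have := hN m hm₁
    rw [← hWN, hf] at this
    have := congrArg (fun x : ℕ => (x : ℤ)) this
    push_cast at this
    rw [hdim, hrr] at this
    linarith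
  subst hg
  push_cast at e1
  linarith

end Fermat.Agent.LowerSq
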